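import Fermat.Agent.SmythFormula.Main
import Mathlib.NumberTheory.LSeries.DirichletContinuation
import Mathlib.NumberTheory.LegendreSymbol.QuadraticChar.Basic

/-!
# The iterated averages, their integrability and the special values

The two measures as iterated circle averages of `log |1 + x + y|` and `log |1 + x + y + z|`, and
`lThree` as the value at `2` of the `L`-function of the character modulo `3`.
-/

set_option autoImplicit false

noncomputable section

namespace FA.SmythFormula

open Real

theorem iterated_two :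
    circleAverage (fun x => circleAverage (fun y => log ‖1 + x + y‖) 0 1) 0 1 =
      circleAverage (fun x => log⁺ ‖1 + x‖) 0 1 :=
  congrArg (circleAverage · 0 1) (funext fun _ => average_log_norm _)

theorem iterated_phi : (fun x : ℂ =>
    circleAverage (fun y => circleAverage (fun z => log ‖1 + x + y + z‖) 0 1) 0 1) = phi :=
  funext fun x => congrArg (circleAverage · 0 1) (funext fun _ => average_log_norm _)

/-- The reduction of `1 + x + y + z` to a maximum of two logarithms. -/
theorem iterated_three_eq_max {x : ℂ} (hx : 1 + x ≠ 0) :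
    circleAverage (fun y => circleAverage (fun z => log ‖1 + x + y + z‖) 0 1) 0 1 =
      circleAverage (fun w => max (log ‖1 + x‖) (log ‖1 + w‖)) 0 1 :=
  (congrFun iterated_phi x).trans (average_posLog_eq_average_max hx)

/-- No level of the iterated averages integrates a function that is not integrable. -/
theorem iterated_integrable :
    (∀ x : ℂ, CircleIntegrable (fun y => log ‖1 + x + y‖) 0 1) ∧
      CircleIntegrable (fun x => circleAverage (fun y => log ‖1 + x + y‖) 0 1) 0 1 ∧
      (∀ x y : ℂ, CircleIntegrable (fun z => log ‖1 + x + y + z‖) 0 1) ∧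
      (∀ x : ℂ, CircleIntegrable (fun y => circleAverage (fun z => log ‖1 + x + y + z‖) 0 1) 0 1) ∧
      CircleIntegrable (fun x =>
        circleAverage (fun y => circleAverage (fun z => log ‖1 + x + y + z‖) 0 1) 0 1) 0 1 := by
  refine ⟨fun x => circleIntegrable_log_norm _, ?_, fun x y => circleIntegrable_log_norm _,
    fun x => ?_, iterated_phi ▸ continuous_phi.continuousOn.circleIntegrable'⟩
  · rw [funext fun x : ℂ => average_log_norm (1 + x)]
    exact continuous_posLog_norm.continuousOn.circleIntegrable'
  · rw [funext fun y : ℂ => average_log_norm (1 + x + y)]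
    exact (by fun_prop : Continuous fun y : ℂ => log⁺ ‖1 + x + y‖).continuousOn.circleIntegrable'

/-- The quadratic character modulo `3`. -/
def chiThree : DirichletCharacter ℂ 3 :=
  (quadraticChar (ZMod 3)).ringHomComp (Int.castRingHom ℂ)

theorem lFunction_chiThree_two : DirichletCharacter.LFunction chiThree 2 = (lThree : ℂ) := by
  have h0 : chiThree (0 : ZMod 3) = 0 := MulChar.map_zero _
  have h1 : chiThree (1 : ZMod 3) = 1 := map_one _
  have h2 : chiThree (2 : ZMod 3) = -1 := by
    show ((quadraticChar (ZMod 3) 2 : ℤ) : ℂ) = -1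
    rw [show quadraticChar (ZMod 3) 2 = -1 by decide]
    norm_num
  set f : ℕ → ℂ := fun n => chiThree n / (n : ℂ) ^ 2 with hf
  have hs : Summable f := by
    refine Summable.of_norm_bounded (Real.summable_one_div_nat_pow.2 one_lt_two) fun n => ?_
    rw [norm_div, norm_pow, Complex.norm_natCast]
    exact div_le_div_of_nonneg_right (DirichletCharacter.norm_le_one _ _) (sq_nonneg _)
  rw [DirichletCharacter.LFunction_eq_LSeries _ (by norm_num), LSeries]
  have hterm : ∀ n : ℕ, LSeries.term (fun n => chiThree n) 2 n = f n := fun n => by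
    rcases eq_or_ne n 0 with rfl | hn
    · simp [hf]
    · rw [LSeries.term_of_ne_zero hn]
      exact congrArg (chiThree n / ·) (Complex.cpow_natCast (n : ℂ) 2)
  rw [tsum_congr hterm, Nat.sumByResidueClasses hs 3, lThree, Complex.ofReal_tsum]
  have e0 : ∀ m : ℕ, f (0 + 3 * m) = 0 := fun m => by
    simp only [hf]
    rw [show ((0 + 3 * m : ℕ) : ZMod 3) = 0 by
      push_cast; rw [show (3 : ZMod 3) = 0 by decide]; simp, h0, zero_div]
  have e1 : ∀ m : ℕ, f (1 + 3 * m) = 1 / (3 * (m : ℂ) + 1) ^ 2 := fun m => by
    simp only [hf]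
    rw [show ((1 + 3 * m : ℕ) : ZMod 3) = 1 by
      push_cast; rw [show (3 : ZMod 3) = 0 by decide]; simp, h1]
    push_cast
    rw [add_comm (1 : ℂ)]
  have e2 : ∀ m : ℕ, f (2 + 3 * m) = -(1 / (3 * (m : ℂ) + 2) ^ 2) := fun m => by
    simp only [hf]
    rw [show ((2 + 3 * m : ℕ) : ZMod 3) = 2 by
      push_cast; rw [show (3 : ZMod 3) = 0 by decide]; simp, h2]
    push_cast
    rw [add_comm (2 : ℂ), neg_div]
  have s1 : Summable fun m : ℕ => 1 / (3 * (m : ℂ) + 1) ^ 2 :=
    (hs.comp_injective (i := fun m => 1 + 3 * m) fun a b h => by simpa using h).congr e1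
  have s2 : Summable fun m : ℕ => -(1 / (3 * (m : ℂ) + 2) ^ 2) :=
    (hs.comp_injective (i := fun m => 2 + 3 * m) fun a b h => by simpa using h).congr e2
  show ∑ j : Fin 3, ∑' m : ℕ, f (ZMod.val (n := 3) j + 3 * m) = _
  rw [Fin.sum_univ_three]
  show ∑' m : ℕ, f (0 + 3 * m) + ∑' m : ℕ, f (1 + 3 * m) + ∑' m : ℕ, f (2 + 3 * m) = _
  rw [tsum_congr e0, tsum_congr e1, tsum_congr e2, tsum_zero, zero_add, ← Summable.tsum_add s1 s2]
  refine tsum_congr fun m => ?_
  push_cast
  ring

theorem riemannZeta_three : riemannZeta 3 = ((∑' n : ℕ, 1 / (n : ℝ) ^ 3 : ℝ) : ℂ) := by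
  have h := zeta_nat_eq_tsum_of_gt_one (k := 3) (by norm_num)
  rw [Nat.cast_ofNat] at h
  rw [h, Complex.ofReal_tsum]
  exact tsum_congr fun n => by push_cast; rfl

end FA.SmythFormula

end
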