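import Fermat.Agent.SmythFormula.Series
import Mathlib.Analysis.SpecialFunctions.Integrals.PosLogEqCircleAverage
import Mathlib.Analysis.SpecialFunctions.Trigonometric.Bounds
import Mathlib.MeasureTheory.Integral.Prod
import Mathlib.NumberTheory.LSeries.RiemannZeta

/-!
# Mahler measures of `1 + x + y` and `1 + x + y + z`

Jensen's formula removes one variable, Fubini's theorem on the torus a second one.
-/

set_option autoImplicit false

noncomputable section

namespace FA.SmythFormula

open Filter Topology MeasureTheory Real Set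
open scoped ComplexConjugate

/-- Rotating the circle. -/
theorem circleAverage_rotate (g : ℂ → ℝ) {u : ℂ} (hu : ‖u‖ = 1) :
    circleAverage (fun y => g (u * y)) 0 1 = circleAverage g 0 1 := by
  obtain ⟨η, rfl⟩ : ∃ η : ℝ, Complex.exp (η * Complex.I) = u :=
    ⟨Complex.arg u, by simpa [hu] using Complex.norm_mul_exp_arg_mul_I u⟩
  rw [circleAverage_eq_integral_add (f := g) η, circleAverage_def]
  congr 1
  refine intervalIntegral.integral_congr fun θ _ => congrArg g ?_
  rw [circleMap_eq, circleMap_eq, ← Complex.exp_add]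
  push_cast
  ring_nf

/-- Complex conjugation preserves the average. -/
theorem circleAverage_conj (g : ℂ → ℝ) :
    circleAverage (fun y => g (conj y)) 0 1 = circleAverage g 0 1 := by
  rw [circleAverage_def, circleAverage_def]
  congr 1
  have h : ∀ θ : ℝ, conj (circleMap 0 1 θ) = circleMap 0 1 (2 * π - θ) := fun θ => by
    rw [circleMap_eq, circleMap_eq, ← Complex.exp_conj]
    push_cast
    rw [sub_mul, Complex.exp_sub, Complex.exp_two_pi_mul_I, one_div, ← Complex.exp_neg]
    congr 1
    simp
  simp only [h]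
  rw [intervalIntegral.integral_comp_sub_left (fun θ => g (circleMap 0 1 θ)), sub_self, sub_zero]

/-- A symmetric function is averaged over the upper half circle. -/
theorem circleAverage_symm {g : ℂ → ℝ} (hg : CircleIntegrable g 0 1) (hsymm : ∀ z, g (conj z) = g z) :
    circleAverage g 0 1 = π⁻¹ * ∫ t in 0..π, g (circleMap 0 1 t) := by
  have h1 : IntervalIntegrable (fun t => g (circleMap 0 1 t)) volume 0 π :=
    IntervalIntegrable.mono_set hg (by
      rw [uIcc_of_le pi_pos.le, uIcc_of_le two_pi_pos.le]
      exact Icc_subset_Icc le_rfl (by linarith [pi_pos]))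
  have h2 : IntervalIntegrable (fun t => g (circleMap 0 1 t)) volume π (2 * π) :=
    IntervalIntegrable.mono_set hg (by
      rw [uIcc_of_le (by linarith [pi_pos]), uIcc_of_le two_pi_pos.le]
      exact Icc_subset_Icc pi_pos.le le_rfl)
  have e : ∫ t in π..2 * π, g (circleMap 0 1 t) = ∫ t in 0..π, g (circleMap 0 1 t) := by
    have h := intervalIntegral.integral_comp_sub_left (a := 0) (b := π)
      (fun t => g (circleMap 0 1 t)) (2 * π)
    rw [sub_zero, show 2 * π - π = π by ring] at h
    rw [← h]
    refine intervalIntegral.integral_congr fun t _ => ?_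
    show g (circleMap 0 1 (2 * π - t)) = g (circleMap 0 1 t)
    rw [← hsymm (circleMap 0 1 t), circleMap_eq, circleMap_eq, ← Complex.exp_conj]
    push_cast
    rw [sub_mul, Complex.exp_sub, Complex.exp_two_pi_mul_I, one_div, ← Complex.exp_neg]
    congr 2
    simp
  rw [circleAverage_def, ← intervalIntegral.integral_add_adjacent_intervals h1 h2, e, smul_eq_mul]
  field_simp
  ring

/-- Jensen's formula for one variable. -/
theorem average_log_norm (c : ℂ) :
    circleAverage (fun y => log ‖c + y‖) 0 1 = log⁺ ‖c‖ := by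
  rw [← circleAverage_log_norm_add_const_eq_posLog (a := c)]
  exact congrArg (circleAverage · 0 1) (funext fun y => by rw [add_comm])

theorem circleIntegrable_log_norm (c : ℂ) : CircleIntegrable (fun y => log ‖c + y‖) 0 1 := by
  simpa only [one_mul] using circleIntegrable_log_norm_affine c 1

theorem average_log_norm_unit (c : ℂ) {u : ℂ} (hu : ‖u‖ = 1) :
    circleAverage (fun w => log ‖c + u * w‖) 0 1 = log⁺ ‖c‖ :=
  (circleAverage_rotate (fun y => log ‖c + y‖) hu).trans (average_log_norm c)

theorem average_log_norm_affine {a b : ℂ} (ha : a ≠ 0) (hb : b ≠ 0) :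
    circleAverage (fun y => log ‖a + b * y‖) 0 1 = max (log ‖a‖) (log ‖b‖) := by
  have hb' : ‖b‖ ≠ 0 := norm_ne_zero_iff.2 hb
  have hu : ‖b / (‖b‖ : ℂ)‖ = 1 := by
    rw [norm_div, Complex.norm_real, norm_norm, div_self hb']
  rw [show (fun y => log ‖a + b * y‖) =
      fun y => (fun z => log ‖a + (‖b‖ : ℂ) * z‖) (b / (‖b‖ : ℂ) * y) from funext fun y => by
    dsimp only
    rw [← mul_assoc, mul_div_cancel₀ _ (Complex.ofReal_ne_zero.2 hb')],
    circleAverage_rotate (fun z => log ‖a + (‖b‖ : ℂ) * z‖) hu]
  have h := circleAverage_log_norm_sub_const_eq_log_radius_add_posLog (a := -a) (c := 0) hb'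
  rw [circleAverage_eq_circleAverage_zero_one, zero_sub, neg_neg] at h
  refine ((congrArg (circleAverage · 0 1) (funext fun z => ?_)).trans h).trans ?_
  · rw [add_zero, sub_neg_eq_add, add_comm]
  · rw [Real.posLog_apply, ← max_add_add_left, add_zero,
      Real.log_mul (inv_ne_zero hb') (norm_ne_zero_iff.2 ha), Real.log_inv,
      add_neg_cancel_left, max_comm]

/-- Almost no point of the circle is `-1`. -/
theorem ae_one_add_ne : ∀ᵐ t : ℝ, 1 + circleMap 0 1 t ≠ 0 := by
  refine ae_iff.2 (Set.Countable.measure_zero ((Set.countable_range fun k : ℤ =>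
    π + k * (2 * π)).mono fun t ht => ?_) _)
  simp only [mem_ofPred_eq, not_not] at ht
  have h := congrArg Complex.re ht
  rw [circleMap_eq, Complex.add_re, Complex.one_re, Complex.exp_ofReal_mul_I_re,
    Complex.zero_re] at h
  obtain ⟨k, hk⟩ := Real.cos_eq_neg_one_iff.1 (show cos t = -1 by linarith)
  exact ⟨k, hk⟩

/-- Two averages of `log |a + y (1 + w)|` in either order. -/
theorem average_posLog_eq_average_max {a : ℂ} (ha : a ≠ 0) :
    circleAverage (fun y => log⁺ ‖a + y‖) 0 1 =
      circleAverage (fun w => max (log ‖a‖) (log ‖1 + w‖)) 0 1 := by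
  set f : ℝ → ℝ → ℝ := fun θ φ => log ‖a + circleMap 0 1 θ * (1 + circleMap 0 1 φ)‖ with hf
  have hnorm : ∀ θ : ℝ, ‖circleMap 0 1 θ‖ = 1 := fun θ => by simp
  have hsplit : ∀ θ φ : ℝ, a + circleMap 0 1 θ * (1 + circleMap 0 1 φ) =
      (a + circleMap 0 1 θ) + circleMap 0 1 θ * circleMap 0 1 φ := fun θ φ => by ring
  have h2π : (0 : ℝ) ≤ 2 * π := two_pi_pos.le
  set μ := volume.restrict (Ioc (0 : ℝ) (2 * π))
  have hmeas : AEStronglyMeasurable (Function.uncurry f) (μ.prod μ) := by
    have hc : Continuous fun p : ℝ × ℝ =>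
        ‖a + circleMap 0 1 p.1 * (1 + circleMap 0 1 p.2)‖ := by fun_prop
    exact (Real.measurable_log.comp hc.measurable).aestronglyMeasurable
  have hslice : ∀ θ : ℝ, IntervalIntegrable (f θ) volume 0 (2 * π) := fun θ => by
    have h := circleIntegrable_log_norm_affine (a + circleMap 0 1 θ) (circleMap 0 1 θ)
    simp only [hf, hsplit]
    exact h
  have havg : ∀ θ : ℝ, (2 * π)⁻¹ * ∫ φ in 0..2 * π, f θ φ = log⁺ ‖a + circleMap 0 1 θ‖ := fun θ => by
    rw [← average_log_norm_unit (a + circleMap 0 1 θ) (hnorm θ), circleAverage_def, smul_eq_mul]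
    simp only [hf, hsplit]
  have hbound : ∀ θ : ℝ, ∫ φ, ‖f θ φ‖ ∂μ ≤ 2 * π * (2 * log⁺ (‖a‖ + 2)) := by
    intro θ
    rw [← intervalIntegral.integral_of_le h2π]
    have h1 : ∀ φ, ‖f θ φ‖ ≤ 2 * log⁺ (‖a‖ + 2) - f θ φ := by
      intro φ
      have hle : log⁺ ‖a + circleMap 0 1 θ * (1 + circleMap 0 1 φ)‖ ≤ log⁺ (‖a‖ + 2) := by
        refine Real.posLog_le_posLog (norm_nonneg _) ((norm_add_le _ _).trans ?_)
        rw [norm_mul, hnorm, one_mul]
        have := norm_add_le (1 : ℂ) (circleMap 0 1 φ)
        rw [norm_one, hnorm] at this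
        linarith
      have h := Real.half_mul_log_add_log_abs
        (x := ‖a + circleMap 0 1 θ * (1 + circleMap 0 1 φ)‖)
      simp only [hf, Real.norm_eq_abs]
      linarith
    refine (intervalIntegral.integral_mono_on h2π (hslice θ).norm
      (intervalIntegrable_const.sub (hslice θ)) fun φ _ => h1 φ).trans ?_
    rw [intervalIntegral.integral_sub intervalIntegrable_const (hslice θ),
      intervalIntegral.integral_const, smul_eq_mul, sub_zero]
    have h := havg θ
    rw [inv_mul_eq_iff_eq_mul₀ two_pi_pos.ne'] at h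
    have : 0 ≤ 2 * π * log⁺ ‖a + circleMap 0 1 θ‖ := mul_nonneg h2π Real.posLog_nonneg
    linarith
  have hint : Integrable (Function.uncurry f) (μ.prod μ) := by
    refine (integrable_prod_iff hmeas).2 ⟨.of_forall fun θ =>
      (intervalIntegrable_iff_integrableOn_Ioc_of_le h2π).1 (hslice θ), ?_⟩
    refine (integrable_const (2 * π * (2 * log⁺ (‖a‖ + 2)))).mono'
      hmeas.norm.integral_prod_right' (.of_forall fun θ => ?_)
    rw [Real.norm_eq_abs, abs_of_nonneg (integral_nonneg fun φ => norm_nonneg _)]
    exact hbound θ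
  have hswap : ∫ θ in 0..2 * π, ∫ φ in 0..2 * π, f θ φ =
      ∫ φ in 0..2 * π, ∫ θ in 0..2 * π, f θ φ := by
    refine intervalIntegral_intervalIntegral_swap ?_
    rwa [IntegrableOn, uIoc_of_le h2π, Measure.volume_eq_prod, ← Measure.prod_restrict]
  have hR : ∀ᵐ φ : ℝ, φ ∈ uIoc 0 (2 * π) →
      max (log ‖a‖) (log ‖1 + circleMap 0 1 φ‖) = (2 * π)⁻¹ * ∫ θ in 0..2 * π, f θ φ := by
    filter_upwards [ae_one_add_ne] with φ hφ _
    rw [← average_log_norm_affine ha hφ, circleAverage_def, smul_eq_mul]
    simp only [hf, mul_comm (1 + circleMap 0 1 φ)]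
  rw [circleAverage_def, circleAverage_def, smul_eq_mul, smul_eq_mul,
    intervalIntegral.integral_congr_ae hR, ← intervalIntegral.integral_congr fun θ _ => havg θ,
    intervalIntegral.integral_const_mul, intervalIntegral.integral_const_mul, hswap]

theorem logDist_one_eq (t : ℝ) : logDist 1 t = log (2 + 2 * cos t) / 2 := by
  rw [logDist, eq_div_iff two_ne_zero, mul_comm,
    show (2 : ℝ) + 2 * cos t = 1 + 1 ^ 2 + 2 * 1 * cos t by ring, ← norm_sq_one_add, Real.log_pow]
  norm_num

theorem two_add_cos_pos {t : ℝ} (h0 : 0 ≤ t) (h1 : t < π) : 0 < 2 + 2 * cos t := by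
  have := Real.cos_lt_cos_of_nonneg_of_le_pi h0 le_rfl h1
  rw [cos_pi] at this
  linarith

theorem logDist_anti {s t : ℝ} (h0 : 0 ≤ s) (hst : s ≤ t) (ht : t < π) :
    logDist 1 t ≤ logDist 1 s := by
  rw [logDist_one_eq, logDist_one_eq]
  refine div_le_div_of_nonneg_right (Real.log_le_log (two_add_cos_pos (h0.trans hst) ht) ?_)
    two_pos.le
  linarith [Real.cos_le_cos_of_nonneg_of_le_pi h0 ht.le hst]

theorem logDist_two_pi_div_three : logDist 1 (2 * π / 3) = 0 := by
  rw [logDist_one_eq, show 2 * π / 3 = π - π / 3 by ring, Real.cos_pi_sub, Real.cos_pi_div_three]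
  norm_num

theorem logDist_pos {t : ℝ} (h0 : 0 < t) (h1 : t < 2 * π / 3) : 0 < logDist 1 t := by
  rw [logDist_one_eq]
  have := Real.cos_lt_cos_of_nonneg_of_le_pi h0.le (show 2 * π / 3 ≤ π by linarith [pi_pos]) h1
  rw [show 2 * π / 3 = π - π / 3 by ring, Real.cos_pi_sub, Real.cos_pi_div_three] at this
  exact div_pos (Real.log_pos (by linarith)) two_pos

/-- The one-variable integrand is continuous. -/
theorem continuous_posLog_norm : Continuous fun x : ℂ => log⁺ ‖1 + x‖ := by fun_prop

/-- **Smyth's formula for `1 + x + y`.** -/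
theorem measure_two : circleAverage (fun x => log⁺ ‖1 + x‖) 0 1 = 3 * √3 / (4 * π) * lThree := by
  have hc : Continuous fun t : ℝ => log⁺ ‖1 + circleMap 0 1 t‖ := by fun_prop
  have hp := pi_pos
  rw [circleAverage_symm continuous_posLog_norm.continuousOn.circleIntegrable' fun z => by
      rw [← Complex.norm_conj (1 + z), map_add, map_one],
    ← intervalIntegral.integral_add_adjacent_intervals (hc.intervalIntegrable 0 (2 * π / 3))
      (hc.intervalIntegrable _ π)]
  have e1 : ∫ t in 0..2 * π / 3, log⁺ ‖1 + circleMap 0 1 t‖ =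
      ∫ t in 0..2 * π / 3, logDist 1 t := by
    refine intervalIntegral.integral_congr fun t ht => ?_
    rw [uIcc_of_le (by positivity)] at ht
    show log⁺ ‖1 + circleMap 0 1 t‖ = _
    rw [Real.posLog_apply, ← logDist_one, max_eq_right]
    exact logDist_two_pi_div_three ▸ logDist_anti ht.1 ht.2 (by linarith)
  have e2 : ∫ t in 2 * π / 3..π, log⁺ ‖1 + circleMap 0 1 t‖ = ∫ t in 2 * π / 3..π, (0 : ℝ) := by
    refine intervalIntegral.integral_congr_ae ?_
    filter_upwards [ae_iff.2 (by simp : volume {t : ℝ | ¬t ≠ π} = 0)] with t hne ht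
    rw [uIoc_of_le (by linarith)] at ht
    rw [Real.posLog_apply, ← logDist_one, max_eq_left]
    exact logDist_two_pi_div_three ▸
      logDist_anti (by positivity) ht.1.le (lt_of_le_of_ne ht.2 hne)
  rw [e1, e2, intervalIntegral.integral_zero, add_zero, integral_logDist]
  field_simp

/-- The measure of `1 + x + y` is positive. -/
theorem measure_two_pos : 0 < circleAverage (fun x => log⁺ ‖1 + x‖) 0 1 := by
  have h : 0 < ∫ t in 0..2 * π / 3, logDist 1 t :=
    intervalIntegral.intervalIntegral_pos_of_pos_on
      (intervalIntegrable_logDist le_rfl (by positivity) (by linarith [pi_pos]))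
      (fun t ht => logDist_pos ht.1 ht.2) (by positivity)
  rw [integral_logDist] at h
  rw [measure_two, show 3 * √3 / (4 * π) * lThree = (3 * √3 / 4 * lThree) / π by field_simp]
  exact div_pos h pi_pos

/-- The average over two variables for `1 + x + y + z`. -/
def phi (x : ℂ) : ℝ := circleAverage (fun y => log⁺ ‖1 + x + y‖) 0 1

theorem continuous_phi : Continuous phi := by
  unfold phi
  simp only [circleAverage_def]
  exact (intervalIntegral.continuous_parametric_intervalIntegral_of_continuous'
    (f := fun (x : ℂ) (θ : ℝ) => log⁺ ‖1 + x + circleMap 0 1 θ‖) (by fun_prop) 0 (2 * π)).const_smul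
      ((2 * π)⁻¹)

theorem phi_conj (z : ℂ) : phi (conj z) = phi z := by
  rw [phi, phi, ← circleAverage_conj fun y => log⁺ ‖1 + z + y‖]
  refine congrArg (circleAverage · 0 1) (funext fun y => ?_)
  rw [← Complex.norm_conj (1 + z + conj y), map_add, map_add, map_one, Complex.conj_conj]

theorem intervalIntegrable_max (c : ℝ) :
    IntervalIntegrable (fun t => max c (logDist 1 t)) volume 0 (2 * π) := by
  rw [intervalIntegrable_iff_integrableOn_Ioc_of_le two_pi_pos.le]
  exact Integrable.sup (integrable_const c)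
    ((intervalIntegrable_iff_integrableOn_Ioc_of_le two_pi_pos.le).1
      (intervalIntegrable_logDist le_rfl two_pi_pos.le le_rfl))

/-- The average on the upper half circle. -/
theorem phi_circleMap {s : ℝ} (h0 : 0 < s) (h1 : s < π) :
    phi (circleMap 0 1 s) =
      π⁻¹ * ((∫ t in 0..s, logDist 1 t) + (π - s) * logDist 1 s) := by
  have hp := pi_pos
  have hne : 1 + circleMap 0 1 s ≠ 0 := fun h => by
    have e := norm_sq_one_add 1 s
    rw [Complex.ofReal_one, one_mul, ← circleMap_eq, h, norm_zero] at e
    linarith [two_add_cos_pos h0.le h1]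
  rw [phi, average_posLog_eq_average_max hne, circleAverage_symm ?_ fun z => by
    rw [← Complex.norm_conj (1 + z), map_add, map_one]]
  · congr 1
    simp only [← logDist_one]
    set c := logDist 1 s
    have hi := intervalIntegrable_max c
    have hi1 : IntervalIntegrable (fun t => max c (logDist 1 t)) volume 0 s :=
      hi.mono_set (by
        rw [uIcc_of_le h0.le, uIcc_of_le two_pi_pos.le]
        exact Icc_subset_Icc le_rfl (by linarith))
    have hi2 : IntervalIntegrable (fun t => max c (logDist 1 t)) volume s π :=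
      hi.mono_set (by
        rw [uIcc_of_le h1.le, uIcc_of_le two_pi_pos.le]
        exact Icc_subset_Icc h0.le (by linarith))
    rw [← intervalIntegral.integral_add_adjacent_intervals hi1 hi2]
    congr 1
    · refine intervalIntegral.integral_congr fun t ht => ?_
      rw [uIcc_of_le h0.le] at ht
      exact max_eq_right (logDist_anti ht.1 ht.2 h1)
    · rw [show (π - s) * c = ∫ _ in s..π, c by rw [intervalIntegral.integral_const, smul_eq_mul]]
      refine intervalIntegral.integral_congr_ae ?_
      filter_upwards [ae_iff.2 (by simp : volume {t : ℝ | ¬t ≠ π} = 0)] with t hne ht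
      rw [uIoc_of_le h1.le] at ht
      exact max_eq_left (logDist_anti h0.le ht.1.le (lt_of_le_of_ne ht.2 hne))
  · show IntervalIntegrable (fun t => max (log ‖1 + circleMap 0 1 s‖) (log ‖1 + circleMap 0 1 t‖))
      volume 0 (2 * π)
    simp only [← logDist_one]
    exact intervalIntegrable_max _

/-- **Smyth's formula for `1 + x + y + z`.** -/
theorem measure_three : circleAverage phi 0 1 = 7 / (2 * π ^ 2) * ∑' n : ℕ, 1 / (n : ℝ) ^ 3 := by
  have hp := pi_pos
  set F : ℝ → ℝ := fun s => ∫ t in 0..s, logDist 1 t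
  have hψ : IntervalIntegrable (fun t => logDist 1 t) volume 0 π :=
    intervalIntegrable_logDist le_rfl hp.le (by linarith)
  have hFc : ContinuousOn F (uIcc 0 π) :=
    intervalIntegral.continuousOn_primitive_interval' hψ left_mem_uIcc
  have hF : IntervalIntegrable F volume 0 π := hFc.intervalIntegrable
  have hw : IntervalIntegrable (fun s => (π - s) * logDist 1 s) volume 0 π :=
    hψ.continuousOn_mul (by fun_prop)
  have hmain : ∫ s in 0..π, F s = ∫ s in 0..π, (π - s) * logDist 1 s := by
    have h := intervalIntegral.integral_eq_sub_of_hasDerivAt_of_le hp.le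
      (f := fun s => (π - s) * F s) (f' := fun s => (π - s) * logDist 1 s - F s)
      ((by fun_prop : ContinuousOn (fun s : ℝ => π - s) (Icc 0 π)).mul (uIcc_of_le hp.le ▸ hFc))
      (fun s hs => ?_) (hw.sub hF)
    · rw [intervalIntegral.integral_sub hw hF, show F 0 = 0 from intervalIntegral.integral_same,
        sub_self, mul_zero, zero_mul, sub_self] at h
      linarith
    · have hc : ∀ x ∈ Ioo (0 : ℝ) π, ContinuousAt (fun t => logDist 1 t) x := fun x hx => by
        simp only [logDist_one_eq]
        exact ((by fun_prop : Continuous fun t : ℝ => 2 + 2 * cos t).continuousAt.log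
          (two_add_cos_pos hx.1.le hx.2).ne').div_const 2
      have hd : HasDerivAt F (logDist 1 s) s :=
        intervalIntegral.integral_hasDerivAt_right
          (intervalIntegrable_logDist le_rfl hs.1.le (by linarith [hs.2]))
          (ContinuousAt.stronglyMeasurableAtFilter isOpen_Ioo hc s hs) (hc s hs)
      refine (((hasDerivAt_id s).const_sub π).mul hd).congr_deriv ?_
      simp only [id_eq]
      ring
  rw [circleAverage_symm continuous_phi.continuousOn.circleIntegrable' phi_conj,
    intervalIntegral.integral_congr_ae (g := fun s => π⁻¹ * (F s + (π - s) * logDist 1 s)) ?_,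
    intervalIntegral.integral_const_mul, intervalIntegral.integral_add hF hw, hmain,
    integral_sub_mul_logDist]
  · field_simp
    ring
  · filter_upwards [ae_iff.2 (by simp : volume {t : ℝ | ¬t ≠ π} = 0)] with s hne hs
    rw [uIoc_of_le hp.le] at hs
    exact phi_circleMap hs.1 (lt_of_le_of_ne hs.2 hne)

end FA.SmythFormula

end
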