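import Mathlib.Analysis.SpecialFunctions.Complex.LogBounds
import Mathlib.Analysis.SpecialFunctions.Integrability.LogMeromorphic
import Mathlib.Analysis.SpecialFunctions.Integrals.Basic
import Mathlib.Analysis.Normed.Group.Tannery
import Mathlib.Analysis.SumOverResidueClass
import Mathlib.Analysis.PSeries
import Mathlib.MeasureTheory.Integral.DominatedConvergence

/-!
# The Fourier series of `log |1 + e ^ (i t)|` in the mean

Integrating the Taylor series of `log (1 + z)` on `|z| = r` against a continuous weight and letting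
`r` tend to `1` gives the integrals in Smyth's formulas.
-/

set_option autoImplicit false

noncomputable section

namespace FA.SmythFormula

open Filter Topology MeasureTheory Real intervalIntegral

/-- `log |1 + r e ^ (i t)|`. -/
def logDist (r t : ℝ) : ℝ := log ‖1 + (r : ℂ) * Complex.exp (t * Complex.I)‖

theorem norm_sq_one_add (r t : ℝ) :
    ‖1 + (r : ℂ) * Complex.exp (t * Complex.I)‖ ^ 2 = 1 + r ^ 2 + 2 * r * cos t := by
  rw [← Complex.normSq_eq_norm_sq, Complex.normSq_apply]
  simp only [Complex.add_re, Complex.add_im, Complex.one_re, Complex.one_im, Complex.mul_re,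
    Complex.mul_im, Complex.ofReal_re, Complex.ofReal_im, Complex.exp_ofReal_mul_I_re,
    Complex.exp_ofReal_mul_I_im]
  linear_combination r ^ 2 * Real.sin_sq_add_cos_sq t

theorem circleMap_eq (t : ℝ) : circleMap 0 1 t = Complex.exp (t * Complex.I) := by
  simp [circleMap]

theorem logDist_one (t : ℝ) : logDist 1 t = log ‖1 + circleMap 0 1 t‖ := by
  simp [logDist, circleMap_eq]

theorem circleIntegrable_log_norm_affine (c u : ℂ) :
    CircleIntegrable (fun z => log ‖c + u * z‖) 0 1 :=
  MeromorphicOn.circleIntegrable_log_norm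
    ((analyticOnNhd_const.add (analyticOnNhd_const.mul analyticOnNhd_id)).meromorphicOn)

theorem intervalIntegrable_logDist {a b : ℝ} (ha : 0 ≤ a) (hab : a ≤ b) (hb : b ≤ 2 * π) :
    IntervalIntegrable (fun t => logDist 1 t) volume a b := by
  have h : IntervalIntegrable (fun t => log ‖(1 : ℂ) + 1 * circleMap 0 1 t‖) volume 0 (2 * π) :=
    circleIntegrable_log_norm_affine 1 1
  simp only [one_mul, ← logDist_one] at h
  refine h.mono_set ?_
  rw [Set.uIcc_of_le hab, Set.uIcc_of_le two_pi_pos.le]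
  exact Set.Icc_subset_Icc ha hb

/-- The series on the circle of radius `r < 1`. -/
theorem hasSum_logDist {r t : ℝ} (hr : 0 ≤ r) (hr1 : r < 1) :
    HasSum (fun n : ℕ => (-1) ^ (n + 1) * r ^ n * cos (n * t) / n) (logDist r t) := by
  have hn : ‖(r : ℂ) * Complex.exp (t * Complex.I)‖ < 1 := by
    rw [norm_mul, Complex.norm_real, Complex.norm_exp_ofReal_mul_I, mul_one, Real.norm_eq_abs,
      abs_of_nonneg hr]
    exact hr1
  have h := Complex.hasSum_re (Complex.hasSum_taylorSeries_log hn)
  rw [Complex.log_re] at h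
  refine h.congr_fun fun n => ?_
  rw [mul_pow, ← Complex.exp_nat_mul, Complex.div_natCast_re, ← mul_assoc,
    show (n : ℂ) * ((t : ℂ) * Complex.I) = ((n * t : ℝ) : ℂ) * Complex.I by push_cast; ring,
    show ((-1 : ℂ) ^ (n + 1)) * (r : ℂ) ^ n = (((-1) ^ (n + 1) * r ^ n : ℝ) : ℂ) by push_cast; ring,
    Complex.re_ofReal_mul, Complex.exp_ofReal_mul_I_re]

theorem continuous_logDist {r : ℝ} (hr : 0 ≤ r) (hr1 : r < 1) :
    Continuous fun t => logDist r t := by
  refine Continuous.log (by fun_prop) fun t h => ?_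
  have h' := norm_sq_one_add r t
  rw [h] at h'
  nlinarith [mul_le_mul_of_nonneg_left (neg_one_le_cos t) hr, sq_pos_of_pos (sub_pos.2 hr1)]

/-- Domination on the approach to the unit circle. -/
theorem abs_logDist_le {r t : ℝ} (hr : 1 / 2 ≤ r) (hr1 : r ≤ 1) (ht : cos t ≠ -1) :
    |logDist r t| ≤ log 2 + |logDist 1 t| := by
  have hr0 : 0 < r := by linarith
  have hc : 0 < 1 + cos t := by
    have := (neg_one_le_cos t).lt_of_ne (Ne.symm ht)
    linarith
  set A := ‖1 + (r : ℂ) * Complex.exp (t * Complex.I)‖ with hA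
  set B := ‖1 + ((1 : ℝ) : ℂ) * Complex.exp (t * Complex.I)‖ with hB
  have eA := norm_sq_one_add r t
  have eB := norm_sq_one_add 1 t
  rw [← hA] at eA
  rw [← hB] at eB
  have hA2 : r * B ^ 2 ≤ A ^ 2 := by nlinarith [sq_nonneg (1 - r)]
  have hB0 : 0 < B := by
    rcases (norm_nonneg _ : 0 ≤ B).lt_or_eq with h | h
    · exact h
    · rw [show B = 0 from h.symm] at eB; nlinarith
  have hA0 : 0 < A := by
    rcases (norm_nonneg _ : 0 ≤ A).lt_or_eq with h | h
    · exact h
    · rw [show A = 0 from h.symm] at hA2; nlinarith [mul_pos hr0 (sq_pos_of_pos hB0)]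
  have h2 : A ≤ 2 := (norm_add_le _ _).trans (by
    rw [norm_one, norm_mul, Complex.norm_exp_ofReal_mul_I, Complex.norm_real, Real.norm_eq_abs,
      abs_of_pos hr0, mul_one]
    linarith)
  have hl := Real.log_le_log (by positivity) hA2
  rw [Real.log_mul hr0.ne' (by positivity), Real.log_pow, Real.log_pow] at hl
  push_cast at hl
  have hlr : -log 2 ≤ log r := by
    rw [← Real.log_inv]
    exact Real.log_le_log (by positivity) (by linarith)
  have := Real.log_le_log hA0 h2
  have := neg_abs_le (log B)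
  have := Real.log_pos one_lt_two
  show |log A| ≤ log 2 + |log B|
  rw [abs_le]
  constructor <;> linarith [abs_nonneg (log B)]

/-- **The Abel limit.** -/
theorem integral_mul_logDist {b : ℝ} (hb0 : 0 ≤ b) (hb : b ≤ π) {w : ℝ → ℝ} (hw : Continuous w)
    {c : ℕ → ℝ} (hc : ∀ n : ℕ, n ≠ 0 → ∫ t in 0..b, w t * cos (n * t) = c n)
    (hsum : Summable fun n : ℕ => |c n| / n) :
    ∫ t in 0..b, w t * logDist 1 t = ∑' n : ℕ, (-1) ^ (n + 1) * c n / n := by
  obtain ⟨B, hB⟩ := (isCompact_uIcc (a := (0 : ℝ)) (b := b)).exists_bound_of_continuousOn hw.continuousOn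
  have hmem : ∀ {t : ℝ}, t ∈ Set.uIoc 0 b → |w t| ≤ B := fun ht => by
    simpa using hB _ (Set.uIoc_subset_uIcc ht)
  have hB0 : 0 ≤ B := (norm_nonneg _).trans (hB 0 Set.left_mem_uIcc)
  set r : ℕ → ℝ := fun k => 1 - 1 / (k + 2)
  have hr : ∀ k, 1 / 2 ≤ r k ∧ r k < 1 := fun k => by
    have h1 : (1 : ℝ) / (k + 2) ≤ 1 / 2 :=
      one_div_le_one_div_of_le two_pos (by have := Nat.cast_nonneg (α := ℝ) k; linarith)
    have h2 : (0 : ℝ) < 1 / (k + 2) := by positivity
    simp only [r]
    constructor <;> linarith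
  have hrt : Tendsto r atTop (𝓝 1) := by
    have h := (tendsto_one_div_add_atTop_nhds_zero_nat (𝕜 := ℝ)).comp (tendsto_add_atTop_nat 1)
    simpa [r, Function.comp_def, add_assoc, one_add_one_eq_two] using (tendsto_const_nhds (x := (1 : ℝ))).sub h
  have hser : ∀ k, HasSum (fun n : ℕ => (-1) ^ (n + 1) * r k ^ n * c n / n)
      (∫ t in 0..b, w t * logDist (r k) t) := by
    intro k
    have hk := hr k
    have h := intervalIntegral.hasSum_integral_of_dominated_convergence (μ := volume) (a := 0)
      (b := b) (F := fun (n : ℕ) t => w t * ((-1) ^ (n + 1) * r k ^ n * cos (n * t) / n))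
      (f := fun t => w t * logDist (r k) t) (fun n _ => B * r k ^ n)
      (fun n => (by fun_prop : Continuous fun t : ℝ =>
        w t * ((-1) ^ (n + 1) * r k ^ n * cos (n * t) / n)).aestronglyMeasurable)
      (fun n => .of_forall fun t ht => by
        rw [norm_mul, Real.norm_eq_abs, Real.norm_eq_abs]
        refine mul_le_mul (hmem ht) ?_ (abs_nonneg _) hB0
        rcases n.eq_zero_or_pos with rfl | hn
        · simp
        · rw [abs_div, abs_mul, abs_mul, abs_neg_one_pow, one_mul, abs_pow,
            abs_of_pos (by linarith : 0 < r k), Nat.abs_cast]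
          refine (div_le_self (mul_nonneg (pow_nonneg (by linarith) _) (abs_nonneg _))
            (by exact_mod_cast hn)).trans ?_
          exact mul_le_of_le_one_right (pow_nonneg (by linarith) _) (abs_cos_le_one _))
      (.of_forall fun _ _ => (summable_geometric_of_lt_one (by linarith) hk.2).mul_left B)
      intervalIntegrable_const
      (.of_forall fun t _ => (hasSum_logDist (by linarith) hk.2).mul_left (w t))
    refine h.congr_fun fun n => ?_
    rcases n.eq_zero_or_pos with rfl | hn
    · simp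
    · rw [← hc n hn.ne', ← intervalIntegral.integral_const_mul, ← intervalIntegral.integral_div]
      exact intervalIntegral.integral_congr fun t _ => by ring
  have hL : Tendsto (fun k => ∫ t in 0..b, w t * logDist (r k) t) atTop
      (𝓝 (∫ t in 0..b, w t * logDist 1 t)) := by
    have hae : ∀ᵐ t : ℝ, t ∈ Set.uIoc 0 b → cos t ≠ -1 := by
      filter_upwards [ae_iff.2 (by simp : volume {t : ℝ | ¬t ≠ π} = 0)] with t hne ht hcos
      rw [Set.uIoc_of_le hb0] at ht
      exact hne (Real.injOn_cos ⟨ht.1.le, ht.2.trans hb⟩ ⟨pi_pos.le, le_rfl⟩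
        (hcos.trans cos_pi.symm))
    refine intervalIntegral.tendsto_integral_filter_of_dominated_convergence
      (fun t => B * (log 2 + |logDist 1 t|)) (.of_forall fun k => ?_) (.of_forall fun k => ?_) ?_ ?_
    · exact (hw.mul (continuous_logDist (by linarith [(hr k).1]) (hr k).2)).aestronglyMeasurable
    · filter_upwards [hae] with t ht htb
      rw [norm_mul, Real.norm_eq_abs, Real.norm_eq_abs]
      exact mul_le_mul (hmem htb) (abs_logDist_le (hr k).1 (hr k).2.le (ht htb)) (abs_nonneg _) hB0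
    · exact (intervalIntegrable_const.add
        (intervalIntegrable_logDist le_rfl hb0 (by linarith [pi_pos])).abs).const_mul B
    · filter_upwards [hae] with t ht htb
      refine Tendsto.const_mul _ (Tendsto.log ?_ ?_)
      · exact ((Continuous.tendsto (by fun_prop :
          Continuous fun x : ℝ => ‖1 + (x : ℂ) * Complex.exp (t * Complex.I)‖) 1).comp hrt)
      · intro h
        have h' := norm_sq_one_add 1 t
        rw [h] at h'
        exact ht htb (by linarith)
  have hR : Tendsto (fun k => ∑' n : ℕ, (-1) ^ (n + 1) * r k ^ n * c n / n) atTop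
      (𝓝 (∑' n : ℕ, (-1) ^ (n + 1) * c n / n)) := by
    refine tendsto_tsum_of_dominated_convergence hsum (fun n => ?_) (.of_forall fun k n => ?_)
    · have h := ((tendsto_const_nhds (x := ((-1 : ℝ) ^ (n + 1)))).mul (hrt.pow n)).mul_const (c n)
      simpa using h.div_const (n : ℝ)
    · have hk := hr k
      have : (r k) ^ n ≤ 1 := pow_le_one₀ (by linarith) hk.2.le
      rw [Real.norm_eq_abs, abs_div, abs_mul, abs_mul, abs_neg_one_pow, one_mul, abs_pow,
        abs_of_pos (by linarith : 0 < r k), Nat.abs_cast]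
      exact div_le_div_of_nonneg_right (mul_le_of_le_one_left (abs_nonneg _) this)
        (Nat.cast_nonneg _)
  exact tendsto_nhds_unique hL (hR.congr fun k => (hser k).tsum_eq)

/-- `L (χ₋₃, 2)`. -/
def lThree : ℝ := ∑' k : ℕ, (1 / (3 * (k : ℝ) + 1) ^ 2 - 1 / (3 * (k : ℝ) + 2) ^ 2)

theorem sin_two_pi_div_three : sin (2 * π / 3) = √3 / 2 := by
  rw [show 2 * π / 3 = π - π / 3 by ring, Real.sin_pi_sub, Real.sin_pi_div_three]

/-- The alternating sine series. -/
theorem tsum_sin_sq : ∑' n : ℕ, (-1 : ℝ) ^ (n + 1) * (sin (n * (2 * π / 3)) / n) / n =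
    3 * √3 / 4 * lThree := by
  set f : ℕ → ℝ := fun n => sin (n * (2 * π / 3)) / (n : ℝ) ^ 2 with hf
  have hs : Summable f :=
    Summable.of_norm_bounded (Real.summable_one_div_nat_pow.2 one_lt_two) fun n => by
      rw [Real.norm_eq_abs, abs_div, abs_of_nonneg (sq_nonneg (n : ℝ))]
      exact div_le_div_of_nonneg_right (abs_sin_le_one _) (sq_nonneg _)
  have heven : ∀ m : ℕ, f (2 * m) = -f m / 4 := fun m => by
    simp only [hf]
    push_cast
    rw [show 2 * (m : ℝ) * (2 * π / 3) = m * (2 * π) - m * (2 * π / 3) by ring,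
      Real.sin_nat_mul_two_pi_sub, mul_pow]
    ring
  have he : Summable fun m => f (2 * m) := hs.comp_injective fun a b h => by simpa using h
  have ho : Summable fun m => f (2 * m + 1) := hs.comp_injective fun a b h => by simpa using h
  have hg : (fun n : ℕ => (-1 : ℝ) ^ (n + 1) * (sin (n * (2 * π / 3)) / n) / n) =
      fun n => (-1 : ℝ) ^ (n + 1) * f n := by
    funext n
    simp only [hf]
    ring
  rw [hg]
  have e1 : ∀ m : ℕ, (-1 : ℝ) ^ (2 * m + 1) * f (2 * m) = -f (2 * m) := fun m => by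
    simp [pow_succ, pow_mul]
  have e2 : ∀ m : ℕ, (-1 : ℝ) ^ (2 * m + 1 + 1) * f (2 * m + 1) = f (2 * m + 1) := fun m => by
    simp [pow_succ, pow_mul]
  rw [← tsum_even_add_odd (f := fun n => (-1 : ℝ) ^ (n + 1) * f n)
    (by simpa only [e1] using he.neg) (by simpa only [e2] using ho)]
  simp only [e1, e2, tsum_neg]
  have hodd : ∑' m, f (2 * m) + ∑' m, f (2 * m + 1) = ∑' n, f n := tsum_even_add_odd he ho
  have hev : ∑' m, f (2 * m) = -(∑' n, f n) / 4 := by
    simp only [heven, tsum_div_const, tsum_neg]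
  have h3 : ∑' n, f n = √3 / 2 * lThree := by
    rw [Nat.sumByResidueClasses hs 3, lThree]
    have s1 : Summable fun m : ℕ => f (1 + 3 * m) := hs.comp_injective fun a b h => by simpa using h
    have s2 : Summable fun m : ℕ => f (2 + 3 * m) := hs.comp_injective fun a b h => by simpa using h
    have a0 : ∀ m : ℕ, f (0 + 3 * m) = 0 := fun m => by
      simp only [hf]
      push_cast
      rw [show (0 + 3 * (m : ℝ)) * (2 * π / 3) = ((2 * m : ℕ) : ℝ) * π by push_cast; ring,
        Real.sin_nat_mul_pi, zero_div]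
    have a1 : ∀ m : ℕ, f (1 + 3 * m) = √3 / 2 * (1 / (3 * (m : ℝ) + 1) ^ 2) := fun m => by
      simp only [hf]
      push_cast
      rw [show (1 + 3 * (m : ℝ)) * (2 * π / 3) = 2 * π / 3 + m * (2 * π) by ring,
        Real.sin_add_nat_mul_two_pi, sin_two_pi_div_three]
      ring
    have a2 : ∀ m : ℕ, f (2 + 3 * m) = -(√3 / 2 * (1 / (3 * (m : ℝ) + 2) ^ 2)) := fun m => by
      simp only [hf]
      push_cast
      rw [show (2 + 3 * (m : ℝ)) * (2 * π / 3) = ((m + 1 : ℕ) : ℝ) * (2 * π) - 2 * π / 3 by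
          push_cast; ring, Real.sin_nat_mul_two_pi_sub, sin_two_pi_div_three]
      ring
    simp only [a1] at s1
    simp only [a2] at s2
    show ∑ j : Fin 3, ∑' m : ℕ, f (ZMod.val (n := 3) j + 3 * m) = _
    rw [Fin.sum_univ_three]
    show ∑' m : ℕ, f (0 + 3 * m) + ∑' m : ℕ, f (1 + 3 * m) + ∑' m : ℕ, f (2 + 3 * m) = _
    rw [tsum_congr a0, tsum_congr a1, tsum_congr a2, tsum_zero, zero_add]
    rw [← Summable.tsum_add s1 s2, ← tsum_mul_left]
    exact tsum_congr fun m => by ring
  linarith

/-- The odd cubes. -/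
theorem tsum_odd_cube : ∑' n : ℕ, (-1 : ℝ) ^ (n + 1) * ((1 - (-1) ^ n) / (n : ℝ) ^ 2) / n =
    7 / 4 * ∑' n : ℕ, 1 / (n : ℝ) ^ 3 := by
  set f : ℕ → ℝ := fun n => 1 / (n : ℝ) ^ 3 with hf
  have hs : Summable f := Real.summable_one_div_nat_pow.2 (by norm_num)
  have he : Summable fun m => f (2 * m) := hs.comp_injective fun a b h => by simpa using h
  have ho : Summable fun m => f (2 * m + 1) := hs.comp_injective fun a b h => by simpa using h
  have heven : ∀ m : ℕ, f (2 * m) = f m / 8 := fun m => by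
    simp only [hf]
    push_cast
    ring
  have hodd : ∑' m, f (2 * m) + ∑' m, f (2 * m + 1) = ∑' n, f n := tsum_even_add_odd he ho
  have hev : ∑' m, f (2 * m) = (∑' n, f n) / 8 := by simp only [heven, tsum_div_const]
  have e1 : ∀ m : ℕ, (-1 : ℝ) ^ (2 * m + 1) * ((1 - (-1) ^ (2 * m)) / ((2 * m : ℕ) : ℝ) ^ 2) /
      ((2 * m : ℕ) : ℝ) = 0 := fun m => by simp [pow_mul]
  have e2 : ∀ m : ℕ, (-1 : ℝ) ^ (2 * m + 1 + 1) * ((1 - (-1) ^ (2 * m + 1)) /
      ((2 * m + 1 : ℕ) : ℝ) ^ 2) / ((2 * m + 1 : ℕ) : ℝ) = 2 * f (2 * m + 1) := fun m => by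
    simp only [hf, pow_succ, pow_mul]
    ring_nf
  rw [← tsum_even_add_odd (f := fun n : ℕ => (-1 : ℝ) ^ (n + 1) * ((1 - (-1) ^ n) / (n : ℝ) ^ 2) / n)
    (by simp only [e1]; exact summable_zero) (by simp only [e2]; exact ho.mul_left 2)]
  simp only [e1, e2, tsum_zero, zero_add, tsum_mul_left]
  linarith

/-- The integral for `1 + x + y`. -/
theorem integral_logDist : ∫ t in 0..(2 * π / 3), logDist 1 t = 3 * √3 / 4 * lThree := by
  rw [← tsum_sin_sq]
  have hc : ∀ n : ℕ, n ≠ 0 → ∫ t in 0..(2 * π / 3), (1 : ℝ) * cos (n * t) =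
      sin (n * (2 * π / 3)) / n := fun n hn => by
    simp only [one_mul]
    rw [intervalIntegral.integral_comp_mul_left (fun t => cos t) (Nat.cast_ne_zero.2 hn),
      integral_cos, mul_zero, sin_zero, sub_zero, smul_eq_mul, inv_mul_eq_div]
  have h := integral_mul_logDist (b := 2 * π / 3) (w := fun _ => 1) (by positivity)
    (by linarith [pi_pos]) continuous_const (c := fun n => sin (n * (2 * π / 3)) / n) hc
    (Summable.of_norm_bounded (Real.summable_one_div_nat_pow.2 one_lt_two) fun n => by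
      rw [Real.norm_eq_abs, abs_div, abs_abs, abs_div, Nat.abs_cast, div_div, ← sq]
      exact div_le_div_of_nonneg_right (abs_sin_le_one _) (sq_nonneg _))
  simpa only [one_mul] using h

/-- The integral for `1 + x + y + z`. -/
theorem integral_sub_mul_logDist :
    ∫ t in 0..π, (π - t) * logDist 1 t = 7 / 4 * ∑' n : ℕ, 1 / (n : ℝ) ^ 3 := by
  rw [← tsum_odd_cube]
  refine integral_mul_logDist pi_pos.le le_rfl (by fun_prop) (fun n hn => ?_)
    (Summable.of_norm_bounded ((Real.summable_one_div_nat_pow.2 one_lt_two).mul_left 2) fun n => ?_)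
  · have hn' : (n : ℝ) ≠ 0 := Nat.cast_ne_zero.2 hn
    have hd : ∀ t : ℝ, HasDerivAt (fun s => (π - s) * sin (n * s) / n - cos (n * s) / (n : ℝ) ^ 2)
        ((π - t) * cos (n * t)) t := fun t => by
      refine ((((hasDerivAt_id t).const_sub π).mul ((hasDerivAt_id t).const_mul (n : ℝ)).sin).div_const
        (n : ℝ) |>.sub (((hasDerivAt_id t).const_mul (n : ℝ)).cos.div_const ((n : ℝ) ^ 2))).congr_deriv ?_
      simp only [id_eq]
      field_simp
      ring
    rw [intervalIntegral.integral_eq_sub_of_hasDerivAt (fun t _ => hd t)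
      (Continuous.intervalIntegrable (by fun_prop) _ _)]
    simp only [mul_zero, sin_zero, cos_zero, Real.cos_nat_mul_pi, sub_self, zero_mul, zero_div]
    ring
  · rw [Real.norm_eq_abs, abs_div, abs_abs, abs_div, Nat.abs_cast, abs_pow, Nat.abs_cast]
    rcases n.eq_zero_or_pos with rfl | hn
    · simp
    · refine (div_le_self (by positivity) (by exact_mod_cast hn)).trans ?_
      rw [mul_one_div]
      refine div_le_div_of_nonneg_right ?_ (sq_nonneg _)
      rw [abs_le]
      rcases neg_one_pow_eq_or ℝ n with h | h <;> rw [h] <;> norm_num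

end FA.SmythFormula

end
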